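import Fermat.Agent.E2K.Cls
import Fermat.Agent.E2.Desc
import Fermat.Agent.CarE.BaseInst

/-!
# Inertia invariant classes are defined over the fixed field of inertia
-/

set_option autoImplicit false
set_option linter.unusedSectionVars false
set_option linter.style.haveILetI false

open scoped MatrixGroups

noncomputable section

namespace Fermat.Agent.E2K

open Fermat.Agent.KumG ModularCurve AlgebraicCurve Fermat.Agent.RR Fermat.Agent.ModPoly

local notation "Qb" => AlgebraicClosure ℚ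

variable {A : ValuationSubring Qb} {Γ : Subgroup SL(2, ℤ)} [LvlG Γ] [RatG Γ] {m : ℕ} [NeZero m]

/-- functions fixed by inertia descend -/
theorem exists_desc {x : FG Γ Qb} (hx : ∀ σ ∈ A.inertiaSubgroupIn ℚ, galK σ x = x) :
    ∃ f : FG Γ (Flat.K0 A), E2.emb (Flat.K0 A) Qb Γ f = x := by
  haveI := CarE.algebraic_K0 (A := A)
  apply E2.exists_of_coeff (K := Flat.K0 A)
  intro i
  have h1 : (x : LaurentSeries Qb).coeff i ∈ Flat.K0 A := by
    rw [Flat.K0, IntermediateField.mem_fixedField_iff]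
    intro σ hσ
    have e1 := congrArg (fun w : FG Γ Qb => (w : LaurentSeries Qb).coeff i) (hx σ hσ)
    have e2 : ((galK σ x : FG Γ Qb) : LaurentSeries Qb).coeff i =
        σ ((x : LaurentSeries Qb).coeff i) := by
      rw [coe_galK, coeffMap_coeff]
      rfl
    rw [← e2]
    exact e1
  exact ⟨⟨_, h1⟩, rfl⟩

/-- **(I5)** inertia invariant classes have representatives over the fixed field of inertia -/
theorem exists_rep_K0 (ι : Qb →+* ℂ) [FunField Qb (FG Γ Qb)] {ξ : XL Γ m}
    (hξ : ∀ σ ∈ A.inertiaSubgroupIn ℚ, rhoF ι m σ ξ = ξ) :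
    ∃ f : FG Γ (Flat.K0 A), HasCls ι m (E2.emb (Flat.K0 A) Qb Γ f) ξ := by
  obtain ⟨x, hx, hfix⟩ := exists_fixed (K := Qb) ι ξ
  obtain ⟨f, hf⟩ := exists_desc (A := A) (x := x) (fun σ hσ => hfix σ (hξ σ hσ))
  exact ⟨f, by rw [hf]; exact hx⟩

end Fermat.Agent.E2K
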