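import Fermat.Agent.E2K.One
import Fermat.Agent.E2K.Can
import Fermat.Agent.E2.Set2

/-!
# Hecke operators and reductions, over the small field
-/

set_option autoImplicit false
set_option linter.unusedSectionVars false
set_option linter.style.haveILetI false

open UpperHalfPlane ModularForm Complex Matrix.SpecialLinearGroup
open scoped MatrixGroups Manifold
open Fermat.Agent.AL Fermat.Agent.ALCoh Fermat.Agent.KumG Fermat.Agent.Cov CongruenceSubgroup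
  ModularCurve Fermat.Agent.ModPoly Fermat.Agent.GamH Polynomial Fermat.Agent.HeckeProd
  IntermediateField Fermat.Agent.RedMod Fermat.Agent.Red AlgebraicCurve Fermat.Agent.RR
  Fermat.Agent.SSH Fermat.Agent.E2 Fermat.Agent.SemiSt

namespace Fermat.Agent.E2K

noncomputable section

attribute [local instance 10000] fastAlg

/-! ### unit reductions descend -/

section Desc

variable {A₀ K₀ A Ω k : Type*} [CommRing A₀] [IsDomain A₀] [IsDiscreteValuationRing A₀] [Field K₀]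
  [Algebra A₀ K₀] [IsFractionRing A₀ K₀] [CommRing A] [IsDomain A] [ValuationRing A]
  [Field Ω] [Algebra A Ω] [IsFractionRing A Ω] [Field k]
  [Algebra A k] [Algebra A₀ k] [Algebra K₀ Ω]
  {FM₀ Fq₀ : IntermediateField K₀ (LaurentSeries K₀)}
  {FM Fq : IntermediateField Ω (LaurentSeries Ω)}
  {E : IntermediateField k (LaurentSeries k)} {ι : Type*} [Fintype ι] {y : ι → LaurentSeries ℤ}
  {q : ℕ} [hq : Fact q.Prime] [CharP k q]
  {S₀ : SSD A₀ FM₀ Fq₀ E y q} {S : SSD A FM Fq E y q} (X : SExt S₀ S)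

/-- functions with nonzero reduction descend with their reduction -/
theorem LR_desc {x : Fq₀} {a : LaurentSeries k} (h : LR A (X.Dq.emb x : LaurentSeries Ω) a)
    (ha : a ≠ 0) : LR A₀ (x : LaurentSeries K₀) a := by
  have hx : x ≠ 0 := by
    rintro rfl
    rw [map_zero] at h
    exact ha (h.unique LR.zero)
  obtain ⟨n, w, hw, e⟩ := X.scale hx
  obtain ⟨hw1, hw2⟩ := hw
  have hwr := LR_emb X.B (LR.of_mem hw1)
  set wb := πL A₀ K₀ k ⟨w, hw1⟩ with hwb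
  have hwb0 : wb ≠ 0 := hw2
  have hcx := X.coeq x
  rw [hcx] at h
  have hqK : HahnSeries.C (algebraMap A₀ K₀ (q : A₀)) ≠ (0 : LaurentSeries K₀) := by
    rw [Ne, map_eq_zero, map_eq_zero_iff _ (IsFractionRing.injective A₀ K₀)]
    exact X.q_ne
  have hq0 : LR A₀ (HahnSeries.C (algebraMap A₀ K₀ (q : A₀))) (0 : LaurentSeries k) := by
    refine (LR.const (K := K₀) (k := k) (q : A₀)).of_eq rfl ?_
    rw [map_natCast, CharP.cast_eq_zero, map_zero]
  rcases lt_trichotomy n 0 with hn | hn | hn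
  · exfalso
    obtain ⟨j, rfl⟩ : ∃ j : ℕ, n = -(j + 1 : ℕ) := ⟨(-n - 1).toNat, by omega⟩
    have h1 : w = HahnSeries.C (algebraMap A₀ K₀ (q : A₀)) ^ (j + 1) * (x : LaurentSeries K₀) := by
      rw [e, zpow_neg, zpow_natCast, ← mul_assoc, mul_inv_cancel₀ (pow_ne_zero _ hqK), one_mul]
    have h2 := ((LR_emb X.B hq0).pow (j + 1)).mul h
    rw [← map_pow, ← map_mul, ← h1, zero_pow (Nat.succ_ne_zero _), zero_mul] at h2
    exact hwb0 (hwr.unique h2)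
  · rw [hn, zpow_zero, one_mul] at e
    rw [e] at h ⊢
    rw [h.unique hwr]
    exact LR.of_mem hw1
  · exfalso
    obtain ⟨j, rfl⟩ : ∃ j : ℕ, n = (j + 1 : ℕ) := ⟨(n - 1).toNat, by omega⟩
    rw [zpow_natCast] at e
    have h2 := ((LR_emb X.B hq0).pow (j + 1)).mul hwr
    rw [← map_pow, ← map_mul, ← e, zero_pow (Nat.succ_ne_zero _), zero_mul] at h2
    exact ha (h.unique h2)

end Desc

variable {A₀ K₀ A K k : Type*} [CommRing A₀] [IsDomain A₀] [IsDiscreteValuationRing A₀] [Field K₀]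
  [CharZero K₀] [Algebra ℚ K₀]
  [Algebra A₀ K₀] [IsFractionRing A₀ K₀] [CommRing A] [IsDomain A] [ValuationRing A]
  [Field K] [IsAlgClosed K] [CharZero K] [Algebra ℚ K] [Algebra A K] [IsFractionRing A K]
  [Field k] [IsAlgClosed k] [Algebra A k] [Algebra A₀ k] [Algebra K₀ K]
  {q M : ℕ} [hq : Fact q.Prime] [NeZero M]
  {H : Subgroup (ZMod M)ˣ} [hH : Fact ((-1 : (ZMod M)ˣ) ∈ H)] [CharP k q] [PerfectRing k q]
  [Algebra.IsAlgebraic K₀ K] (s : Set2 A₀ K₀ A K k q M H) {m : ℕ} [NeZero m]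

/-- descent of fixed functions with nonzero reductions -/
theorem exists_desc_red {g : FG (Gq q M H) K} (hg : ∀ σ : K ≃ₐ[K₀] K, gal (Gq q M H) σ g = g)
    {α₀ α₁ : FH k M H} (h0 : α₀ ≠ 0) (h1 : α₁ ≠ 0)
    (hr : s.toSetting.S.HasRed g (α₀ : LaurentSeries k) (α₁ : LaurentSeries k)) :
    ∃ g₀ : FG (Gq q M H) K₀, g₀ ≠ 0 ∧ emb K₀ K (Gq q M H) g₀ = g ∧
      (∀ j, (s.X.CC j).v g₀ = 0) ∧ (s.X.CC 0).r g₀ = α₀ ∧ (s.X.CC 1).r g₀ = α₁ := by
  obtain ⟨g₀, hg₀⟩ := exists_of_fixed s.hfix hg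
  have n0 : (α₀ : LaurentSeries k) ≠ 0 := fun h => h0 (Subtype.ext h)
  have n1 : (α₁ : LaurentSeries k) ≠ 0 := fun h => h1 (Subtype.ext h)
  have e0 : LR A (s.X.Dq.emb g₀ : LaurentSeries K) (α₀ : LaurentSeries k) := by
    have : s.X.Dq.emb g₀ = g := hg₀
    rw [this]
    exact hr.1
  have e1 : LR A (s.X.Dq.emb (s.S₀.w g₀) : LaurentSeries K) (α₁ : LaurentSeries k) := by
    have h : s.X.Dq.emb g₀ = g := hg₀
    rw [← s.X.w, h]
    exact hr.2
  have f0 := LR_desc s.X e0 n0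
  have f1 := LR_desc s.X e1 n1
  refine ⟨g₀, ?_, hg₀, ?_, s.X.r0_eq f0, s.X.r1_eq f1⟩
  · rintro rfl
    rw [map_zero] at hg₀
    rw [← hg₀] at hr
    exact n0 (hr.1.unique LR.zero)
  · intro j
    match j with
    | 0 => exact s.X.v0_zero f0 n0
    | 1 => exact s.X.v1_zero f1 n1

/-- the coefficientwise Galois action is the one used for classes -/
theorem gal_eq_galK (σ : K ≃ₐ[K₀] K) (x : FG (Gq q M H) K) :
    gal (Gq q M H) σ x = galK (σ.restrictScalars ℚ) x := rfl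

include s in
/-- scaling over the large field, on one component -/
theorem exists_scale_K {x : FG (Gq q M H) K} (hx : x ≠ 0) :
    ∃ (c : K) (α : FH k M H), c ≠ 0 ∧ α ≠ 0 ∧
      LR A ((algebraMap K (FG (Gq q M H) K) c * x : FG (Gq q M H) K) : LaurentSeries K)
        (α : LaurentSeries k) := by
  obtain ⟨c, hc, hu⟩ := s.toSetting.S.exists_scale_one hx
  have e : ((algebraMap K (FG (Gq q M H) K) c * x : FG (Gq q M H) K) : LaurentSeries K) =
      HahnSeries.C c * (x : LaurentSeries K) := SSD.val_algebraMap_mul c x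
  obtain ⟨h1, h2⟩ := hu
  have h3 : LR A ((algebraMap K (FG (Gq q M H) K) c * x : FG (Gq q M H) K) : LaurentSeries K)
      (πL A K k ⟨_, h1⟩) := (LR.of_mem h1).of_eq e.symm rfl
  exact ⟨c, ⟨_, s.toSetting.S.LR_mem h3⟩, hc, fun h => h2 (congrArg Subtype.val h), h3⟩

section Step

variable {l : ℕ} [NeZero l] {γ : SL(2, ℤ)} {z : Aˣ}
  (hl : l.Prime) (hlN : ¬ l ∣ q * M) (hγ : Adp (q * M) l γ)
  (hz : IsPrimitiveRoot (Units.map (algebraMap A K : A →* K) z) l)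
  (hz' : IsPrimitiveRoot (Units.map (algebraMap A k : A →* k) z) l)

include hz' in
/-- the function `T_ℓ x / x ^ (ℓ + 1)` has nonzero reduction on the first component -/
theorem exists_LR_step {x : FG (Gq q M H) K} (hx : x ≠ 0) :
    ∃ β : FH k M H, β ≠ 0 ∧
      LR A ((TGq s.toSetting hl hlN hγ hz x * (x ^ (l + 1))⁻¹ : FG (Gq q M H) K) :
        LaurentSeries K) (β : LaurentSeries k) := by
  have hlM : ¬ l ∣ M := fun h => hlN (h.mul_left q)
  obtain ⟨Tb, hTb, hTb0⟩ := exists_Tb s.toSetting hz hz' hl hlM hγ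
  obtain ⟨c, α, hc, hα, h⟩ := exists_scale_K s hx
  set C : FG (Gq q M H) K := algebraMap K (FG (Gq q M H) K) c with hC
  have hC0 : C ≠ 0 := by rw [hC, Ne, map_eq_zero]; exact hc
  have h1 := LR_TGq s.toSetting hl hlN hγ hz hz' h
  rw [← hTb, TGq_mul, hC, TGq_const _ _ _ _ _ hc, ← hC] at h1
  have n : (((α ^ (l + 1) : FH k M H)) : LaurentSeries k) ≠ 0 := fun h0 =>
    pow_ne_zero (l + 1) hα (Subtype.ext h0)
  have h2 : LR A (((C * x) ^ (l + 1) : FG (Gq q M H) K) : LaurentSeries K)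
      ((α ^ (l + 1) : FH k M H) : LaurentSeries k) := h.pow (l + 1)
  have h3 := h1.mul (h2.inv n)
  refine ⟨Tb α * (α ^ (l + 1))⁻¹, mul_ne_zero (hTb0 _ hα) (inv_ne_zero (pow_ne_zero _ hα)),
    h3.of_eq ?_ rfl⟩
  have e : TGq s.toSetting hl hlN hγ hz x * (x ^ (l + 1))⁻¹ =
      C ^ (l + 1) * TGq s.toSetting hl hlN hγ hz x * ((C * x) ^ (l + 1))⁻¹ := by
    rw [mul_pow]
    field_simp
  rw [e]
  rfl

end Step

/-- **(1)** the class `T_ℓ ξ - (ℓ + 1) ξ` has a representative with valuation zero on both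
components -/
theorem exists_v_zero {l : ℕ} (hl : l.Prime) (hlN : ¬ l ∣ q * M) {f₀ : FG (Gq q M H) K₀}
    {ξ : XL (Gq q M H) m} (hf : HasCls s.ι m (emb K₀ K (Gq q M H) f₀) ξ) :
    ∃ f₁ : FG (Gq q M H) K₀, f₁ ≠ 0 ∧ HasCls s.ι m (emb K₀ K (Gq q M H) f₁)
      (actE (Gq q M H) m (TH (q * M) (HM (dvd_mul_left M q) H) hl hlN) ξ - (l + 1) • ξ) ∧
      ∀ j, (s.X.CC j).v f₁ = 0 := by
  haveI : NeZero l := ⟨hl.ne_zero⟩
  obtain ⟨γ, hγ⟩ := exists_adp hl hlN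
  have hlk : (l : k) ≠ 0 := by
    rw [Ne, CharP.cast_eq_zero_iff k q]
    intro h
    have := (Nat.prime_dvd_prime_iff_eq hq.out hl).1 h
    exact hlN (this ▸ dvd_mul_right q M)
  obtain ⟨z, hz, hz'⟩ := exists_root_unit (A := A) (K := K) (k := k) hl hlk
  set f : FG (Gq q M H) K := emb K₀ K (Gq q M H) f₀ with hfdef
  have hf0 : f ≠ 0 := hf.ne_zero
  have hfix : ∀ σ : K ≃ₐ[K₀] K, galK (σ.restrictScalars ℚ) f = f := fun σ =>
    gal_emb σ f₀
  set g : FG (Gq q M H) K := TGq s.toSetting hl hlN hγ hz f * (f ^ (l + 1))⁻¹ with hg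
  have hgfix : ∀ σ : K ≃ₐ[K₀] K, gal (Gq q M H) σ g = g := by
    intro σ
    rw [gal_eq_galK, hg, map_mul, map_inv₀, map_pow, galK_TGq, hfix]
  obtain ⟨β₀, hβ₀, hr0⟩ := exists_LR_step s hl hlN hγ hz hz' hf0
  have hwf0 : s.toSetting.S.w f ≠ 0 := (map_ne_zero_iff _ s.toSetting.S.w.injective).2 hf0
  obtain ⟨β₁, hβ₁, hr1⟩ := exists_LR_step s hl hlN hγ hz hz' hwf0
  have hw : s.toSetting.S.w g = TGq s.toSetting hl hlN hγ hz (s.toSetting.S.w f) *
      ((s.toSetting.S.w f) ^ (l + 1))⁻¹ := by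
    rw [hg, map_mul, map_inv₀, map_pow, w_TGq]
  obtain ⟨g₀, h0, he, hv, -, -⟩ := exists_desc_red s hgfix hβ₀ hβ₁ ⟨hr0, by rw [hw]; exact hr1⟩
  refine ⟨g₀, h0, ?_, hv⟩
  rw [he]
  exact (HasCls.TGq hl hlN hγ hz hf).div (hf.pow (l + 1))

/-! ### the Hecke pairs -/

variable (q M H) in
/-- the generators -/
def genP : Set (Module.End ℤ (LZ (Gq q M H)) × Module.End ℤ (LZ (GH M H))) :=
  {p | ∃ (l : ℕ) (hl : l.Prime) (hlN : ¬ l ∣ q * M) (hlM : ¬ l ∣ M),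
      p = (TH (q * M) (HM (dvd_mul_left M q) H) hl hlN, TH M H hl hlM)} ∪
    Set.range fun d : (ZMod (q * M))ˣ =>
      (DH (q * M) (HM (dvd_mul_left M q) H) d, DH M H (ZMod.unitsMap (dvd_mul_left M q) d))

variable (q M H) in
/-- pairs of Hecke operators given by the same polynomial -/
def heckeP : Subring (Module.End ℤ (LZ (Gq q M H)) × Module.End ℤ (LZ (GH M H))) :=
  Subring.closure (genP q M H)

section Act

variable {s' : Setting A K k q M H}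

/-- **the Hecke pairs act on the relation** -/
theorem RR.act {p : Module.End ℤ (LZ (Gq q M H)) × Module.End ℤ (LZ (GH M H))}
    (hp : p ∈ heckeP q M H) : ∀ {f : FG (Gq q M H) K} {ξ : XL (Gq q M H) m}
    {ω₀ ω₁ : XL (GH M H) m}, RR s' f ξ ω₀ ω₁ →
    ∃ g : FG (Gq q M H) K, (∀ σ : K ≃ₐ[ℚ] K, galK σ f = f → galK σ g = g) ∧
      RR s' g (actE (Gq q M H) m p.1 ξ) (actE (GH M H) m p.2 ω₀) (actE (GH M H) m p.2 ω₁) := by
  induction hp using Subring.closure_induction with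
  | mem x hx =>
    intro f ξ ω₀ ω₁ h
    rcases hx with ⟨l, hl, hlN, hlM, rfl⟩ | ⟨d, rfl⟩
    · haveI : NeZero l := ⟨hl.ne_zero⟩
      obtain ⟨γ, hγ⟩ := exists_adp hl hlN
      exact h.hecke hl hlN hlM hγ
    · obtain ⟨γ, hγ, hd⟩ := exists_dd_unit d
      refine ⟨_, ?_, RR.dia (hγ := hγ) h hd⟩
      intro σ hσ
      change galK σ (diaK (Γ := Gq q M H) s'.ι hγ f) = diaK (Γ := Gq q M H) s'.ι hγ f
      rw [galK_diaK, hσ]
  | zero =>
    intro f ξ ω₀ ω₁ h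
    refine ⟨1, fun σ _ => map_one _, ?_⟩
    simp only [Prod.fst_zero, Prod.snd_zero, map_zero]
    exact RR.one s'
  | one =>
    intro f ξ ω₀ ω₁ h
    refine ⟨f, fun σ h => h, ?_⟩
    simp only [Prod.fst_one, Prod.snd_one, map_one]
    exact h
  | add x y _ _ hx hy =>
    intro f ξ ω₀ ω₁ h
    obtain ⟨g, hg, h1⟩ := hx h
    obtain ⟨g', hg', h2⟩ := hy h
    refine ⟨g * g', fun σ hσ => by rw [map_mul, hg σ hσ, hg' σ hσ], ?_⟩
    have h3 := h1.mul h2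
    simp only [Prod.fst_add, Prod.snd_add, map_add]
    exact h3
  | neg x _ hx =>
    intro f ξ ω₀ ω₁ h
    obtain ⟨g, hg, h1⟩ := hx h
    refine ⟨g⁻¹, fun σ hσ => by rw [map_inv₀, hg σ hσ], ?_⟩
    have h3 := h1.inv
    simp only [Prod.fst_neg, Prod.snd_neg, map_neg]
    exact h3
  | mul x y _ _ hx hy =>
    intro f ξ ω₀ ω₁ h
    obtain ⟨g, hg, h1⟩ := hy h
    obtain ⟨g', hg', h2⟩ := hx h1
    refine ⟨g', fun σ hσ => hg' σ (hg σ hσ), ?_⟩
    simp only [Prod.fst_mul, Prod.snd_mul, map_mul]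
    exact h2

/-- functions with trivial class at level `M` have `m`-th powers as reductions -/
theorem Spz.pow_of_zero {x : LaurentSeries K} (h : Spz s' x (0 : XL (GH M H) m)) :
    ∃ β : FH k M H, β ≠ 0 ∧ LR A x ((β ^ m : FH k M H) : LaurentSeries k) := by
  obtain ⟨a, α, β, h1, h2, h3, h4, h5⟩ := h
  obtain ⟨z, rfl⟩ := h1.exists_pow_of_zero
  have n : (α : LaurentSeries k) ≠ 0 := fun h => h3 (Subtype.ext h)
  have hU : IsU A K k (z : LaurentSeries K) := by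
    refine SSD.isU_of_pow (S := s'.S) (NeZero.ne m) ?_
    exact h2.isU n
  obtain ⟨hz1, hz2⟩ := hU
  have hz : LR A (z : LaurentSeries K) (πL A K k ⟨z, hz1⟩) := LR.of_mem hz1
  have hzE : πL A K k ⟨z, hz1⟩ ∈ FH k M H := s'.S.G.πL_mem _
  have e : α = (⟨_, hzE⟩ : FH k M H) ^ m := by
    apply Subtype.ext
    exact h2.unique (hz.pow m)
  refine ⟨⟨_, hzE⟩ * β, mul_ne_zero (fun h => hz2 (congrArg Subtype.val h)) h4, ?_⟩
  rw [mul_pow, ← e]
  exact h5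

end Act

/-- surjectivity of the specialization on `m`-torsion classes -/
def SurjSpz (s : Setting A K k q M H) (m : ℕ) [NeZero m] : Prop :=
  ∀ α : FH k M H, α ≠ 0 → (∀ Q : Place k (FH k M H), (m : ℤ) ∣ Q.ord α) →
    ∃ (ω : XL (GH M H) m) (a : FG (GH M H) K) (α' β : FH k M H), HasCls s.ι m a ω ∧
      LR A (a : LaurentSeries K) (α' : LaurentSeries k) ∧ β ≠ 0 ∧ α = α' * β ^ m

/-- **(2)** if `(t, t')` is a Hecke pair with `t' = 0`, then `t ξ` has a representative whose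
reductions are `m`-th powers -/
theorem exists_pow_red (hS : SurjSpz s.toSetting m) {f₀ : FG (Gq q M H) K₀}
    {ξ : XL (Gq q M H) m} (hf : HasCls s.ι m (emb K₀ K (Gq q M H) f₀) ξ)
    (hv : ∀ j, (s.X.CC j).v f₀ = 0)
    (hd : ∀ j (Q : Place k (FH k M H)), (m : ℤ) ∣ Q.ord ((s.X.CC j).r f₀))
    {p : Module.End ℤ (LZ (Gq q M H)) × Module.End ℤ (LZ (GH M H))} (hp : p ∈ heckeP q M H)
    (hp2 : ∀ ω : XL (GH M H) m, actE (GH M H) m p.2 ω = 0) :
    ∃ g₀ : FG (Gq q M H) K₀, g₀ ≠ 0 ∧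
      HasCls s.ι m (emb K₀ K (Gq q M H) g₀) (actE (Gq q M H) m p.1 ξ) ∧
      (∀ j, (s.X.CC j).v g₀ = 0) ∧
      ∃ β : Fin 2 → FH k M H, ∀ j, β j ≠ 0 ∧ (s.X.CC j).r g₀ = β j ^ m := by
  set f : FG (Gq q M H) K := emb K₀ K (Gq q M H) f₀ with hfdef
  have hf0 : f₀ ≠ 0 := by
    rintro rfl
    exact hf.ne_zero (by rw [hfdef, map_zero])
  have hfix : ∀ σ : K ≃ₐ[K₀] K, galK (σ.restrictScalars ℚ) f = f := fun σ =>
    gal_emb σ f₀
  have hr := s.X.hasRed (s.X.hasRed_r (Car.Comp.mem_of_v (hv 0).ge) (Car.Comp.mem_of_v (hv 1).ge))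
  have hne : ∀ j, (s.X.CC j).r f₀ ≠ 0 := fun j => (Car.Comp.r_ne_zero_iff hf0).2 (hv j)
  have hsp : ∀ (j : Fin 2) (x : LaurentSeries K),
      LR A x ((s.X.CC j).r f₀ : LaurentSeries k) → ∃ ω : XL (GH M H) m,
        Spz s.toSetting x ω := by
    intro j x hx
    obtain ⟨ω, a, α', β, h1, h2, h3, h4⟩ := hS _ (hne j) (hd j)
    refine ⟨ω, a, α', β, h1, h2, ?_, h3, ?_⟩
    · rintro rfl
      apply hne j
      rw [h4, zero_mul]
    · rw [← h4]
      exact hx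
  obtain ⟨ω₀, h0⟩ := hsp 0 (f : LaurentSeries K) hr.1
  obtain ⟨ω₁, h1⟩ := hsp 1 (s.toSetting.S.w f : LaurentSeries K) hr.2
  obtain ⟨g, hg, hR⟩ := RR.act hp (⟨hf, h0, h1⟩ : RR s.toSetting f ξ ω₀ ω₁)
  rw [hp2, hp2] at hR
  obtain ⟨β₀, hβ₀, r0⟩ := hR.r0.pow_of_zero
  obtain ⟨β₁, hβ₁, r1⟩ := hR.r1.pow_of_zero
  obtain ⟨g₀, n0, he, hv0, e0, e1⟩ := exists_desc_red s (g := g)
    (fun σ => hg _ (hfix σ)) (pow_ne_zero m hβ₀) (pow_ne_zero m hβ₁) ⟨r0, r1⟩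
  refine ⟨g₀, n0, ?_, hv0, ![β₀, β₁], fun j => ?_⟩
  · rw [he]
    exact hR.cls
  · match j with
    | 0 => exact ⟨hβ₀, e0⟩
    | 1 => exact ⟨hβ₁, e1⟩

end

end Fermat.Agent.E2K
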