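import Fermat.Agent.KumG.Action
import Fermat.Agent.KumG.Canon
import Fermat.Agent.Nod.Kummer

/-!
# Kummer classes of functions of level `Γ`
-/

set_option autoImplicit false
set_option linter.unusedSectionVars false
set_option linter.style.haveILetI false

open scoped MatrixGroups

noncomputable section

namespace Fermat.Agent.E2K

open Fermat.Agent.KumG ModularCurve AlgebraicCurve Fermat.Agent.RR Fermat.Agent.ModPoly

variable {K : Type*} [Field K] [Algebra ℚ K] [IsAlgClosed K] [CharZero K] (ι : K →+* ℂ)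
  {Γ : Subgroup SL(2, ℤ)} [LvlG Γ] [RatG Γ] {m : ℕ} [NeZero m]

variable (m) in
/-- The Kummer class of the function `x` is `ξ`. -/
def HasCls (x : FG Γ K) (ξ : XL Γ m) : Prop :=
  ∃ Φ : LZ Γ, mkX Φ = ξ ∧ Rep Γ (coeffMap ι (x : LaurentSeries K)) (redI m Φ)

namespace HasCls

variable {ι} {x y : FG Γ K} {ξ η : XL Γ m}

theorem ne_zero (h : HasCls ι m x ξ) : x ≠ 0 := by
  rintro rfl
  obtain ⟨Φ, -, h⟩ := h
  exact h.ne_zero (map_zero _)

theorem mul (h : HasCls ι m x ξ) (h' : HasCls ι m y η) : HasCls ι m (x * y) (ξ + η) := by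
  obtain ⟨Φ, rfl, h⟩ := h
  obtain ⟨Ψ, rfl, h'⟩ := h'
  refine ⟨Φ + Ψ, map_add _ _ _, ?_⟩
  rw [redI_add, MulMemClass.coe_mul, map_mul]
  exact h.mul h'

theorem inv (h : HasCls ι m x ξ) : HasCls ι m x⁻¹ (-ξ) := by
  obtain ⟨Φ, rfl, h⟩ := h
  refine ⟨-Φ, map_neg _ _, ?_⟩
  have e : coeffMap ι ((x⁻¹ : FG Γ K) : LaurentSeries K) = (coeffMap ι (x : LaurentSeries K))⁻¹ := by
    rw [IntermediateField.coe_inv, map_inv₀]
  rw [redI_neg, e]
  exact h.inv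

theorem pow (h : HasCls ι m x ξ) (n : ℕ) : HasCls ι m (x ^ n) (n • ξ) := by
  obtain ⟨Φ, rfl, h⟩ := h
  refine ⟨n • Φ, map_nsmul _ _ _, ?_⟩
  rw [redI_nsmul, SubmonoidClass.coe_pow, map_pow]
  exact h.pow n

theorem div (h : HasCls ι m x ξ) (h' : HasCls ι m y η) : HasCls ι m (x * y⁻¹) (ξ - η) := by
  rw [sub_eq_add_neg]
  exact h.mul h'.inv

variable (ι) in
theorem pow_self {z : FG Γ K} (hz : z ≠ 0) : HasCls ι m (z ^ m) 0 := by
  refine ⟨0, map_zero _, ?_⟩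
  rw [redI_zero, SubmonoidClass.coe_pow, map_pow]
  exact rep_pow (coeffMap_mem_MFunG ι z.2) (coeffMap_ne_zero (ι := ι) hz)

variable (ι) in
theorem const {c : K} (hc : c ≠ 0) : HasCls ι m (algebraMap K (FG Γ K) c) 0 := by
  obtain ⟨d, hd⟩ := IsAlgClosed.exists_pow_nat_eq c (NeZero.pos m)
  have hd0 : d ≠ 0 := by
    rintro rfl
    rw [zero_pow (NeZero.ne m)] at hd
    exact hc hd.symm
  rw [← hd, map_pow]
  exact pow_self ι (by simpa using hd0)

theorem mul_pow (h : HasCls ι m x ξ) {z : FG Γ K} (hz : z ≠ 0) : HasCls ι m (x * z ^ m) ξ := by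
  have := h.mul (pow_self ι (m := m) hz)
  rwa [add_zero] at this

theorem mul_const (h : HasCls ι m x ξ) {c : K} (hc : c ≠ 0) :
    HasCls ι m (x * algebraMap K (FG Γ K) c) ξ := by
  have := h.mul (const ι (m := m) (Γ := Γ) hc)
  rwa [add_zero] at this

theorem exists_pow_of_zero (h : HasCls ι m x 0) : ∃ z : FG Γ K, x = z ^ m := by
  obtain ⟨Φ, h1, h⟩ := h
  rw [← map_zero (mkX (Γ := Γ) (m := m)), mkX_eq_iff, redI_zero] at h1
  rw [h1] at h
  exact exists_pow_of_rep_zero ι h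

theorem exists_pow (h : HasCls ι m x ξ) (h' : HasCls ι m y ξ) :
    ∃ z : FG Γ K, z ≠ 0 ∧ y = x * z ^ m := by
  have h1 := h'.div h
  rw [sub_self] at h1
  obtain ⟨z, hz⟩ := h1.exists_pow_of_zero
  refine ⟨z, ?_, ?_⟩
  · rintro rfl
    rw [zero_pow (NeZero.ne m)] at hz
    exact mul_ne_zero h'.ne_zero (inv_ne_zero h.ne_zero) hz
  · rw [← hz, mul_comm, inv_mul_cancel_right₀ h.ne_zero]

theorem unique (h : HasCls ι m x ξ) (h' : HasCls ι m x η) : ξ = η := by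
  obtain ⟨Φ, rfl, h⟩ := h
  obtain ⟨Ψ, rfl, h'⟩ := h'
  rw [mkX_eq_iff]
  exact h.unique h'

end HasCls

theorem exists_good (ξ : XL Γ m) (c : ℕ) [NeZero c] :
    ∃ x : FG Γ K, KD (m * tb Γ * c) x ∧ cls ι m x = ξ ∧ HasCls ι m x ξ := by
  obtain ⟨x, hx, h⟩ := exists_cls_eq (K := K) ι ξ c
  have hg : Good m x := hx.of_dvd (dvd_mul_right _ _)
  obtain ⟨Φ, hΦ⟩ := hg.exists_mk ι
  have h1 := cls_eq ι hg hΦ
  exact ⟨x, hx, h, Φ, by rw [← h1, h], hΦ⟩

theorem hasCls_of_good {x : FG Γ K} (hx : Good m x) : HasCls ι m x (cls ι m x) := by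
  obtain ⟨Φ, hΦ⟩ := hx.exists_mk ι
  exact ⟨Φ, (cls_eq ι hx hΦ).symm, hΦ⟩

namespace HasCls

variable {ι} {x y : FG Γ K} {ξ η : XL Γ m}

theorem kd (h : HasCls ι m x ξ) : KD m x := by
  obtain ⟨y, hy, -, hy'⟩ := exists_good (K := K) ι ξ 1
  obtain ⟨z, hz, rfl⟩ := hy'.exists_pow h
  exact (hy.of_dvd ⟨tb Γ * 1, by ring⟩).mul (KD.pow_self hz)

theorem gal (h : HasCls ι m x ξ) (σ : K ≃ₐ[ℚ] K) :
    HasCls ι m (galK σ x) (rhoF ι m σ ξ) := by
  obtain ⟨y, hy, hy1, hy'⟩ := exists_good (K := K) ι ξ 1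
  have hg : Good m y := hy.of_dvd (dvd_mul_right _ _)
  obtain ⟨z, hz, rfl⟩ := hy'.exists_pow h
  rw [map_mul, map_pow]
  refine HasCls.mul_pow ?_ (galK_ne_zero σ hz)
  have h1 := rhoF_cls ι σ hg
  rw [hy1] at h1
  rw [h1]
  exact hasCls_of_good ι (KD.gal σ hg)

end HasCls

section Canon

/-- the poles outside the cusps can be removed by an `m`-th power -/
theorem exists_Bd_mul [FunField K (FG Γ K)] {x : FG Γ K} (hx : KD m x) :
    ∃ (z : FG Γ K) (n : ℕ), z ≠ 0 ∧ Bd n (x * z ^ m) := by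
  have hm : m ≠ 0 := NeZero.ne m
  obtain ⟨D, hD⟩ := Nod.exists_divisor hm hx.1 hx.2
  obtain ⟨c, hc⟩ := exists_riemann (K := K) (F := FG Γ K)
  have ht := transcendental_jj (K := K) (Γ := Γ)
  have h1 : 0 < Divisor.degree (poleDiv K (jj Γ K)) := by
    haveI := fd (K := K) ht
    have h2 := degree_poleDiv_ge ht
    refine lt_of_lt_of_le ?_ h2
    exact_mod_cast Module.finrank_pos
  obtain ⟨n, hn⟩ : ∃ n : ℕ, |c| + |Divisor.degree D| + |(rrGenus K (FG Γ K) : ℤ)| ≤ n :=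
    ⟨_, (Int.toNat_of_nonneg (by positivity)).symm.le⟩
  have h2 : Divisor.degree (D + (n : ℤ) • poleDiv K (jj Γ K)) =
      Divisor.degree D + n * Divisor.degree (poleDiv K (jj Γ K)) := by
    rw [map_add, map_zsmul, smul_eq_mul]
  have h3 : (n : ℤ) ≤ n * Divisor.degree (poleDiv K (jj Γ K)) :=
    le_mul_of_one_le_right (Int.natCast_nonneg n) h1
  have a1 := le_abs_self c
  have a2 := neg_abs_le (Divisor.degree D)
  have a3 := le_abs_self (rrGenus K (FG Γ K) : ℤ)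
  have a4 := abs_nonneg c
  have a5 := abs_nonneg (rrGenus K (FG Γ K) : ℤ)
  have h4 := hc (D + (n : ℤ) • poleDiv K (jj Γ K)) (by rw [h2]; linarith)
  obtain ⟨z, hz0, hz⟩ := exists_ne_zero_of_ell_pos
    (D := D + (n : ℤ) • poleDiv K (jj Γ K)) (by rw [h4, h2]; linarith)
  refine ⟨z, m * n, hz0, fun v => ?_⟩
  rw [v.ord_mul hx.1 (pow_ne_zero _ hz0), Curve.ord_pow, ← hD v]
  have h5 := (mem_L.1 hz v).resolve_left hz0
  rw [Finsupp.add_apply] at h5
  change -(D v + (n : ℤ) * (poleDiv K (jj Γ K) v)) ≤ v.ord z at h5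
  rw [poleDiv_apply] at h5
  have h6 : min 0 (v.ord (jj Γ K)) = -max (-v.ord (jj Γ K)) 0 := by
    rcases le_total 0 (v.ord (jj Γ K)) with h7 | h7
    · rw [min_eq_left h7, max_eq_right (by omega)]; rfl
    · rw [min_eq_right h7, max_eq_left (by omega)]; omega
  rw [h6]
  have hm' : (0 : ℤ) ≤ m := Int.natCast_nonneg m
  have h8 := mul_le_mul_of_nonneg_left h5 hm'
  push_cast
  linarith

/-- **fixed representatives of fixed classes** -/
theorem exists_fixed [FunField K (FG Γ K)] (ξ : XL Γ m) : ∃ x : FG Γ K, HasCls ι m x ξ ∧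
    ∀ σ : K ≃ₐ[ℚ] K, rhoF ι m σ ξ = ξ → galK σ x = x := by
  haveI : Nonempty (K →+* ℂ) := ⟨ι⟩
  obtain ⟨y, -, -, hy'⟩ := exists_good (K := K) ι ξ 1
  obtain ⟨z, n, hz, hn⟩ := exists_Bd_mul (m := m) hy'.kd
  have hx := hy'.mul_pow hz
  obtain ⟨w, hw, hcan⟩ := exists_isCan hx.kd hn
  set c : FG Γ K := y * z ^ m * w ^ m with hc
  have hcls : HasCls ι m c ξ := hx.mul_pow hw
  refine ⟨c, hcls, fun σ hσ => ?_⟩
  have h1 := hcls.gal σ
  rw [hσ] at h1
  obtain ⟨u, hu, hu'⟩ := hcls.exists_pow h1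
  have h3 := hcan.gal σ
  rw [hu'] at h3
  rw [hu']
  exact hcan.unique hu h3

end Canon

end Fermat.Agent.E2K
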