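import Fermat.Agent.SSH.CommQ
import Fermat.Agent.KumG.TT

/-!
# Composition of multiplicative operators, general level
-/

set_option autoImplicit false
set_option linter.unusedSectionVars false

open UpperHalfPlane ModularForm Complex Matrix.SpecialLinearGroup CongruenceSubgroup
open scoped MatrixGroups Manifold
open Fermat.Agent.AL Fermat.Agent.MFLib Fermat.Agent.HeckeProd ModularCurve
  Fermat.Agent.GamH Fermat.Agent.Cov
  Fermat.Agent.ALCoh Fermat.Agent.KumG Fermat.Agent.SSH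

namespace Fermat.Agent.E2K

noncomputable section

variable {Γ Γ' Γ'' : Subgroup SL(2, ℤ)} [LvlG Γ] [LvlG Γ'] [LvlG Γ''] {ι κ : Type*} [Fintype ι]
  [Fintype κ] {rep : ι → M2} {rep' : κ → M2} {k l : ℤ} {f g u v : ℍ → ℂ} {B : M2}
  {x y : LaurentSeries ℂ}

/-- comparison of operators -/
theorem mopG_eq_of (hF : Fam Γ Γ' rep) (hdet : ∀ x, 0 < (rep x).det)
    (hF' : Fam Γ Γ'' rep') (hdet' : ∀ x, 0 < (rep' x).det) {C : ℤ → ℂ}
    (hC : ∀ k, C k ≠ 0)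
    (h : ∀ k f, IsMF Γ k f → prodSl k rep f = C k • prodSl k rep' f) (hx : x ∈ MFunG Γ) :
    KumG.mop Γ rep x = KumG.mop Γ rep' x := by
  obtain ⟨k, f, g, hr⟩ := hx
  have h1 := (KumG.repF_mop hF hdet hr).eq
  have h2 := (KumG.repF_mop hF' hdet' hr).eq
  have q1 := (KumG.isMF_prodSl hF' hdet' hr.mg).qgG
  have q2 := (KumG.isMF_prodSl hF' hdet' hr.mf).qgG
  have h3 : Kum.ql (prodSl k rep' g) ≠ 0 := by
    rw [ne_eq, Kum.ql_eq_zero q1]
    exact prodSl_ne_zero hr.mg.holo hr.g0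
  have hCk : (HahnSeries.C (C k) : LaurentSeries ℂ) ≠ 0 := by
    rw [ne_eq, map_eq_zero_iff _ HahnSeries.C_injective]
    exact hC k
  rw [h k g hr.mg, h k f hr.mf, Kum.ql_smul _ q1, Kum.ql_smul _ q2] at h1
  refine mul_right_cancel₀ (mul_ne_zero hCk h3) ?_
  rw [h1, ← h2]
  ring

/-- invariance under change of representatives -/
theorem mopG_congr (hF : Fam Γ Γ' rep) (hdet : ∀ x, 0 < (rep x).det)
    (hF' : Fam Γ Γ'' rep') (hdet' : ∀ x, 0 < (rep' x).det) (e : ι ≃ κ)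
    (he : ∀ x, ∃ δ : Γ, rep x = ((δ : SL(2, ℤ)) : M2) * rep' (e x)) (hx : x ∈ MFunG Γ) :
    KumG.mop Γ rep x = KumG.mop Γ rep' x := by
  refine mopG_eq_of hF hdet hF' hdet' (C := fun _ => 1) (fun _ => one_ne_zero)
    (fun k f hf => ?_) hx
  have key : ∀ x, sl k (rep x) f = sl k (rep' (e x)) f := by
    intro x
    obtain ⟨δ, hδ⟩ := he x
    rw [hδ, sl_mul (by rw [(δ : SL(2, ℤ)).det_coe]; exact one_ne_zero) (hdet' _).ne', sl_SL,
      hf.slash _ δ.2]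
  rw [one_smul, prodSl, prodSl, Finset.prod_congr rfl fun x _ => key x, ← Equiv.prod_comp e]

/-- composition -/
theorem mopG_mop (hF : Fam Γ Γ' rep) (hdet : ∀ x, 0 < (rep x).det)
    (hF' : Fam Γ' Γ'' rep') (hdet' : ∀ x, 0 < (rep' x).det) (hx : x ∈ MFunG Γ) :
    KumG.mop Γ' rep' (KumG.mop Γ rep x) =
      KumG.mop Γ (fun z : ι × κ => rep z.1 * rep' z.2) x := by
  obtain ⟨k, f, g, h⟩ := hx
  have hdd : ∀ z : ι × κ, 0 < (rep z.1 * rep' z.2).det := fun z => by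
    rw [Matrix.det_mul]; exact mul_pos (hdet _) (hdet' _)
  have h1 := (KumG.repF_mop hF' hdet' (KumG.repF_mop hF hdet h)).eq
  have h2 := (KumG.repF_mop (hF.mul hF') hdd h).eq
  -- comparison
  have key : ∀ f : ℍ → ℂ, prodSl ((Fintype.card ι : ℤ) * k) rep' (prodSl k rep f) =
      (∏ y, (((rep' y).det : ℂ)) ^ ((Fintype.card ι : ℤ) - 1)) •
        prodSl k (fun z : ι × κ => rep z.1 * rep' z.2) f := by
    intro f
    rw [prodSl, prodSl, prodSl, Fintype.prod_prod_type_right]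
    have h3 : ∀ y : κ, sl ((Fintype.card ι : ℤ) * k) (rep' y) (∏ x, sl k (rep x) f) =
        (((rep' y).det : ℂ)) ^ ((Fintype.card ι : ℤ) - 1) • ∏ x, sl k (rep x * rep' y) f := by
      intro y
      have h4 := sl_prod (k := k) (hdet' y) (Finset.univ : Finset ι) (fun x => sl k (rep x) f)
      rw [Finset.card_univ] at h4
      rw [h4]
      congr 1
      exact Finset.prod_congr rfl fun x _ => (sl_mul (hdet x).ne' (hdet' y).ne').symm
    rw [Finset.prod_congr rfl fun y _ => h3 y]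
    funext τ
    simp only [Finset.prod_apply, Pi.smul_apply, smul_eq_mul, Finset.prod_mul_distrib]
  set c : ℂ := ∏ y, (((rep' y).det : ℂ)) ^ ((Fintype.card ι : ℤ) - 1) with hc
  have hc0 : c ≠ 0 := by
    rw [hc, Finset.prod_ne_zero_iff]
    intro y _
    exact zpow_ne_zero _ (by exact_mod_cast (hdet' y).ne')
  have q1 := (KumG.isMF_prodSl (hF.mul hF') hdd h.mg).qgG
  have q2 := (KumG.isMF_prodSl (hF.mul hF') hdd h.mf).qgG
  have h5 : Kum.ql (prodSl k (fun z : ι × κ => rep z.1 * rep' z.2) g) ≠ 0 := by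
    rw [ne_eq, Kum.ql_eq_zero q1]
    exact prodSl_ne_zero h.mg.holo h.g0
  have hcC : (HahnSeries.C c : LaurentSeries ℂ) ≠ 0 := by
    rw [ne_eq, map_eq_zero_iff _ HahnSeries.C_injective]
    exact hc0
  rw [key, key, Kum.ql_smul _ q1, Kum.ql_smul _ q2] at h1
  refine mul_right_cancel₀ (mul_ne_zero hcC h5) ?_
  rw [h1, ← h2]
  ring

/-! ### the Hecke operator and the Atkin-Lehner involution -/

variable {q M ℓ : ℕ} [hq : Fact q.Prime] [NeZero M] {H : Subgroup (ZMod M)ˣ}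
  [hH : Fact ((-1 : (ZMod M)ˣ) ∈ H)] {γ : SL(2, ℤ)} (D : WData q M H)

/-- `T_ℓ` and `W` commute, on representatives -/
theorem exists_equiv_W (hl : ℓ.Prime) (hlN : ¬ ℓ ∣ q * M) (hγ : Adp (q * M) ℓ γ) :
    ∃ e : (Option (Fin ℓ) × Unit) ≃ (Unit × Option (Fin ℓ)), ∀ z, ∃ δ : Gq q M H,
      rT ℓ γ z.1 * D.W = ((δ : SL(2, ℤ)) : M2) * (D.W * rT ℓ γ (e z).2) := by
  have hlM : ¬ ℓ ∣ M := fun h => hlN (h.mul_left q)
  have hQ : q ≠ 0 := hq.out.ne_zero
  have hN : q ∣ q * M := dvd_mul_right q M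
  have hQN : (q : ℤ) ∣ (q * M : ℕ) := Int.natCast_dvd_natCast.mpr hN
  obtain ⟨Φ, hΦ⟩ := exists_comm (rep := fun _ : Unit => D.W) hl hlN (D := q)
    (fun _ => det_WQ D.h) (fun h => hlN ((Int.natCast_dvd_natCast.mp h).trans hN))
    (stab_WW (D := q) (Q := q) (R := (q * M : ℕ)) (S := q) hl.ne_zero hQN hQN
      (isCoprime_of_not_dvd hl hlN)) (fun _ => W_mem_WS D)
    (fun C hC => by
      obtain ⟨γ, h1, h2, h3⟩ := WS_mul_adj hN hC (W_mem_WS D) hQ
      exact ⟨(), mkG γ h1 h2, h3⟩) (fun _ _ _ _ => rfl)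
  choose σ g hg using fun y : Option (Fin ℓ) =>
    (famW hN hQ (W_mem_WS D)).tr (aT ℓ γ y) (aT_mem hγ y)
  refine ⟨Φ, fun z => ?_⟩
  obtain ⟨h, hh⟩ := hΦ z
  set w := (Φ z).2 with hw
  -- the comparison element
  let c : SL(2, ℤ) := aT ℓ γ z.1 * h * (g w () : SL(2, ℤ))⁻¹
  have hc : c ∈ GG (q * M) := mul_mem (mul_mem (aT_mem hγ _) h.2) (inv_mem (g w ()).2)
  have key : rT ℓ γ z.1 * D.W = (c : M2) * (D.W * rT ℓ γ w) := by
    have h3 := hg w ()
    rw [rT, rT, Matrix.mul_assoc, hh, ← Matrix.mul_assoc D.W, h3]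
    change _ = ((aT ℓ γ z.1 * h * (g w () : SL(2, ℤ))⁻¹ : SL(2, ℤ)) : M2) *
      (((g w () : SL(2, ℤ)) : M2) * D.W * dl ℓ w)
    rw [Matrix.mul_assoc, coe_mul_inv_mul_SL, coe_mul_mul_SL]
  have hγM := adp_of_adp hγ
  have hcM : c ∈ GH M H := by
    refine mem_GH_of_mul (u := 1) ((isUnit_qv D).mul (isUnit_natCast hl hlM)) ?_
      (one_mem _) (Gamma0_le (dvd_mul_left M q) hc) ((bot_W D).mul (bot_rT hγM w)) key
    have h4 := (bot_rT hγM z.1).mul (bot_W D)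
    rw [Units.val_one, one_mul, mul_comm]
    exact h4
  exact ⟨⟨c, mem_Gq.2 ⟨hc, hcM⟩⟩, key⟩

/-- **`T_ℓ` and `W` commute on functions** -/
theorem slF_mop (hl : ℓ.Prime) (hlN : ¬ ℓ ∣ q * M) (hγ : Adp (q * M) ℓ γ)
    (hx : x ∈ MFunG (Gq q M H)) :
    slF (Gq q M H) D.W (KumG.mop (Gq q M H) (rT ℓ γ) x) =
      KumG.mop (Gq q M H) (rT ℓ γ) (slF (Gq q M H) D.W x) := by
  have hF : Fam (Gq q M H) (Gq q M H) (rT ℓ γ) := fam_rT (HM (dvd_mul_left M q) H) hl hlN hγ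
  obtain ⟨e, he⟩ := exists_equiv_W D hl hlN hγ
  have h1 := mopG_mop hF (det_rT_pos hl γ) D.ad.fam (fun _ => D.ad.det) hx
  have h2 := mopG_mop D.ad.fam (fun _ => D.ad.det) hF (det_rT_pos hl γ) hx
  refine h1.trans (Eq.trans ?_ h2.symm)
  refine mopG_congr (hF.mul D.ad.fam) (fun z => ?_) (D.ad.fam.mul hF) (fun z => ?_) e he hx
  · rw [Matrix.det_mul]; exact mul_pos (det_rT_pos hl γ _) D.ad.det
  · rw [Matrix.det_mul]; exact mul_pos D.ad.det (det_rT_pos hl γ _)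

end

end Fermat.Agent.E2K
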