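import Fermat.Agent.SSH.Model
import Fermat.Agent.HeckeProd.Formal

/-!
# Reduction of the norm operator
-/

set_option autoImplicit false
set_option linter.unusedSectionVars false

noncomputable section

namespace Fermat.Agent.E2K

open ModularCurve Polynomial Fermat.Agent.ModPoly Fermat.Agent.Red
  Fermat.Agent.RedMod Fermat.Agent.SSH Fermat.Agent.HeckeProd

variable {A K k : Type*} [CommRing A] [IsDomain A] [ValuationRing A]
  [Field K] [Algebra A K] [IsFractionRing A K] [Field k] [Algebra A k] {l : ℕ}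

/-- roots of unity in the valuation ring -/
theorem exists_root_unit [IsAlgClosed K] [CharZero K] (hl : l.Prime) (hlk : (l : k) ≠ 0) :
    ∃ z : Aˣ, IsPrimitiveRoot (Units.map (algebraMap A K : A →* K) z) l ∧
      IsPrimitiveRoot (Units.map (algebraMap A k : A →* k) z) l := by
  haveI : NeZero l := ⟨hl.ne_zero⟩
  haveI : NeZero (l : K) := ⟨by exact_mod_cast hl.ne_zero⟩
  haveI : NeZero (l : k) := ⟨hlk⟩
  obtain ⟨ζ, hζ⟩ : ∃ ζ : K, IsPrimitiveRoot ζ l := HasEnoughRootsOfUnity.exists_primitiveRoot K l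
  obtain ⟨y, hy⟩ := IsIntegrallyClosed.exists_algebraMap_eq_of_isIntegral_pow (R := A)
    (x := ζ) hl.pos (by rw [hζ.pow_eq_one]; exact isIntegral_one)
  have hinj := IsFractionRing.injective A K
  have hy1 : y ^ l = 1 := by
    apply hinj
    rw [map_pow, hy, hζ.pow_eq_one, map_one]
  have hyp : IsPrimitiveRoot y l := by
    have h1 : IsPrimitiveRoot (algebraMap A K y) l := by rw [hy]; exact hζ
    exact IsPrimitiveRoot.of_map_of_injective (f := algebraMap A K) h1 hinj
  obtain ⟨z, rfl⟩ : IsUnit y := IsUnit.of_pow_eq_one hy1 hl.ne_zero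
  refine ⟨z, ?_, ?_⟩
  · rw [← IsPrimitiveRoot.coe_units_iff]
    change IsPrimitiveRoot (algebraMap A K z) l
    rw [hy]
    exact hζ
  · rw [← IsPrimitiveRoot.coe_units_iff]
    change IsPrimitiveRoot (algebraMap A k z) l
    have h1 : (cyclotomic l A).IsRoot (z : A) := hyp.isRoot_cyclotomic hl.pos
    have h2 := h1.map (f := algebraMap A k)
    rw [map_cyclotomic] at h2
    exact isRoot_cyclotomic_iff.1 h2

variable [NeZero l]

theorem NN_ne_zero {R : Type*} [Field R] {ζ : Rˣ} (h : IsPrimitiveRoot ζ l)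
    {F : LaurentSeries R} (hF : F ≠ 0) : NN l ζ F ≠ 0 := by
  intro h0
  have h1 := NN_mul h F F⁻¹
  rw [mul_inv_cancel₀ hF, NN_one, h0, zero_mul] at h1
  exact one_ne_zero h1

theorem NN_inv {R : Type*} [Field R] {ζ : Rˣ} (h : IsPrimitiveRoot ζ l)
    (F : LaurentSeries R) : NN l ζ F⁻¹ = (NN l ζ F)⁻¹ := by
  rcases eq_or_ne F 0 with rfl | hF
  · rw [inv_zero, NN_zero, inv_zero]
  · have h1 := NN_mul h F F⁻¹
    rw [mul_inv_cancel₀ hF, NN_one] at h1
    exact eq_inv_of_mul_eq_one_right h1.symm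

/-- the norm operator is compatible with reductions -/
theorem LR_NN {z : Aˣ} (hz : IsPrimitiveRoot (Units.map (algebraMap A K : A →* K) z) l)
    (hz' : IsPrimitiveRoot (Units.map (algebraMap A k : A →* k) z) l)
    {x : LaurentSeries K} {a : LaurentSeries k} (h : LR A x a) :
    LR A (NN l (Units.map (algebraMap A K : A →* K) z) x)
      (NN l (Units.map (algebraMap A k : A →* k) z) a) := by
  obtain ⟨hx, rfl⟩ := h
  obtain ⟨u, v, hv, e⟩ := mem_WL.1 hx
  have hv' : redL A k (NN l z v) ≠ 0 := by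
    have := coeffMap_NN l (algebraMap A k) z v
    rw [redL, this]
    exact NN_ne_zero hz' hv
  have e' : incL A K (NN l z v) * NN l (Units.map (algebraMap A K : A →* K) z) x =
      incL A K (NN l z u) := by
    have h1 : ∀ w : LaurentSeries A, incL A K (NN l z w) =
        NN l (Units.map (algebraMap A K : A →* K) z) (incL A K w) := fun w =>
      coeffMap_NN l (algebraMap A K) z w
    rw [h1, h1, ← NN_mul hz, e]
  refine ⟨⟨_, _, hv', e'⟩, ?_⟩
  rw [πL_eq ⟨_, ⟨_, _, hv', e'⟩⟩ hv' e', πL_eq ⟨x, hx⟩ hv e]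
  have h1 : ∀ w : LaurentSeries A, redL A k (NN l z w) =
      NN l (Units.map (algebraMap A k : A →* k) z) (redL A k w) := fun w =>
    coeffMap_NN l (algebraMap A k) z w
  rw [h1, h1, div_eq_mul_inv, div_eq_mul_inv, NN_mul hz', NN_inv hz']

end Fermat.Agent.E2K
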