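import Fermat.Agent.E2K.Rel

/-!
# Reductions on one component
-/

set_option autoImplicit false
set_option linter.unusedSectionVars false
set_option linter.style.haveILetI false

open UpperHalfPlane ModularForm Complex Matrix.SpecialLinearGroup
open scoped MatrixGroups Manifold
open Fermat.Agent.AL Fermat.Agent.ALCoh Fermat.Agent.KumG Fermat.Agent.Cov CongruenceSubgroup
  ModularCurve Fermat.Agent.ModPoly Fermat.Agent.GamH Polynomial Fermat.Agent.HeckeProd
  IntermediateField Fermat.Agent.RedMod Fermat.Agent.Red AlgebraicCurve Fermat.Agent.RR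
  Fermat.Agent.SSH

namespace Fermat.Agent.E2K

noncomputable section

section Abs

variable {A K k : Type*} [CommRing A] [IsDomain A] [ValuationRing A]
  [Field K] [Algebra A K] [IsFractionRing A K] [Field k] [Algebra A k]
  {FM Fq : IntermediateField K (LaurentSeries K)} {E : IntermediateField k (LaurentSeries k)}
  {ι : Type*} [Fintype ι] {y : ι → LaurentSeries ℤ} {q : ℕ} [hq : Fact q.Prime]
  (S : SSD A FM Fq E y q) [CharP k q]

theorem dia_red_aux (d : Dia Fq S.G S.hle S.w) {x : Fq} {a : E}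
    (h : LR A (x : LaurentSeries K) (a : LaurentSeries k)) (ha : (1 : E) + a ≠ 0) :
    LR A (d.D x : LaurentSeries K) (d.θb a : LaurentSeries k) := by
  by_cases h2 : (S.w x : LaurentSeries K) ∈ WL A K k
  · exact (S.dia_red (a := a) (b := ⟨_, S.red_mem (S.w x) h2⟩) d ⟨h, LR.of_mem h2⟩).1
  have h3 := S.inv_mem_of_not_mem (x := S.w x) h2
  have h5 : (1 : LaurentSeries k) + (a : LaurentSeries k) ≠ 0 := fun h0 => ha (Subtype.ext h0)
  have g1 : LR A ((1 : LaurentSeries K) + (x : LaurentSeries K)) (1 + (a : LaurentSeries k)) :=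
    LR.one.add h
  have hw0 : (S.w x : LaurentSeries K) ≠ 0 := by
    intro h0
    apply h2
    rw [h0]
    exact zero_mem _
  have g2 : LR A ((1 : LaurentSeries K) + (S.w x : LaurentSeries K)⁻¹) (1 + 0 : LaurentSeries k) :=
    LR.one.add h3
  have g3 := g1.inv h5
  have g4 := h3.mul (g2.inv (by rw [add_zero]; exact one_ne_zero))
  have c1 : ((1 : LaurentSeries K) + (x : LaurentSeries K))⁻¹ =
      (((1 + x)⁻¹ : Fq) : LaurentSeries K) := rfl
  have c2 : (S.w x : LaurentSeries K)⁻¹ *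
        ((1 : LaurentSeries K) + (S.w x : LaurentSeries K)⁻¹)⁻¹ =
      ((S.w (1 + x)⁻¹ : Fq) : LaurentSeries K) := by
    rw [map_inv₀, S.map_w_add, map_one]
    change _ = ((1 : LaurentSeries K) + (S.w x : LaurentSeries K))⁻¹
    rw [← mul_inv, mul_add, mul_one, mul_inv_cancel₀ hw0, add_comm]
  have hr : S.HasRed ((1 + x)⁻¹ : Fq) (((1 + a)⁻¹ : E) : LaurentSeries k)
      ((0 : E) : LaurentSeries k) := by
    refine ⟨g3.of_eq c1 rfl, g4.of_eq c2 ?_⟩
    rw [zero_mul]
    rfl
  have h6 := (S.dia_red d hr).1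
  have e1 : d.D ((1 + x)⁻¹ : Fq) = (1 + d.D x)⁻¹ := by
    rw [map_inv₀]
    congr 1
    have := d.D.toRingEquiv.toRingHom.map_add 1 x
    rw [map_one] at this
    exact this
  have e2 : d.θb ((1 + a)⁻¹ : E) = (1 + d.θb a)⁻¹ := by
    rw [map_inv₀]
    congr 1
    have := d.θb.toRingEquiv.toRingHom.map_add 1 a
    rw [map_one] at this
    exact this
  rw [e1, e2] at h6
  have h7 : (1 : E) + d.θb a ≠ 0 := by
    intro h0
    apply ha
    apply d.θb.injective
    have := d.θb.toRingEquiv.toRingHom.map_add 1 a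
    rw [map_one] at this
    change d.θb (1 + a) = _
    rw [map_zero, ← h0]
    exact this
  have h8 := h6.inv (fun h0 => inv_ne_zero h7 (Subtype.ext h0))
  have h9 := h8.sub (LR.one (A := A) (K := K) (k := k))
  refine h9.of_eq ?_ ?_
  · have : (((1 + d.D x)⁻¹ : Fq) : LaurentSeries K) =
      ((1 : LaurentSeries K) + (d.D x : LaurentSeries K))⁻¹ := rfl
    rw [this, inv_inv, add_sub_cancel_left]
  · have : (((1 + d.θb a)⁻¹ : E) : LaurentSeries k) =
      ((1 : LaurentSeries k) + (d.θb a : LaurentSeries k))⁻¹ := rfl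
    rw [this, inv_inv, add_sub_cancel_left]

/-- **diamonds preserve the reduction on the first component** -/
theorem dia_red1 [IsAlgClosed k] (d : Dia Fq S.G S.hle S.w) {x : Fq} {a : E}
    (h : LR A (x : LaurentSeries K) (a : LaurentSeries k)) :
    LR A (d.D x : LaurentSeries K) (d.θb a : LaurentSeries k) := by
  by_cases ha : (1 : E) + a ≠ 0
  · exact dia_red_aux S d h ha
  push Not at ha
  classical
  obtain ⟨c, hc⟩ := Infinite.exists_notMem_finset ({0, 1} : Finset k)
  have hc0 : c ≠ 0 := by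
    rintro rfl; exact hc (by simp)
  have hc1 : c ≠ 1 := by
    rintro rfl; exact hc (by simp)
  obtain ⟨b, rfl⟩ := S.G.hk c
  have hb0 : b ≠ 0 := by rintro rfl; exact hc0 (map_zero _)
  have hbK : algebraMap A K b ≠ 0 := by
    rw [Ne, map_eq_zero_iff _ (IsFractionRing.injective A K)]; exact hb0
  set cK : Fq := algebraMap K Fq (algebraMap A K b) with hcK
  set ck : E := algebraMap k E (algebraMap A k b) with hck
  have e1 : (cK : LaurentSeries K) = HahnSeries.C (algebraMap A K b) := SSD.coe_algebraMap _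
  have e2 : (ck : LaurentSeries k) = HahnSeries.C (algebraMap A k b) := by
    rw [← algebraMap_eq_C]; rfl
  have h1 : LR A ((cK * x : Fq) : LaurentSeries K) ((ck * a : E) : LaurentSeries k) :=
    ((LR.const b).mul h).of_eq (by rw [← e1]; rfl) (by rw [← e2]; rfl)
  have h2 : (1 : E) + ck * a ≠ 0 := by
    have e3 : a = -1 := (neg_eq_of_add_eq_zero_right ha).symm
    rw [e3, mul_neg, mul_one, ← sub_eq_add_neg]
    intro h0
    apply hc1
    have e4 : ck = 1 := (sub_eq_zero.1 h0).symm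
    rw [hck, ← map_one (algebraMap k E)] at e4
    exact (algebraMap k E).injective e4
  have h3 := dia_red_aux S d h1 h2
  rw [map_mul, map_mul, hcK, hck, AlgEquiv.commutes, AlgEquiv.commutes, ← hcK, ← hck] at h3
  have h5 : LR A (HahnSeries.C (algebraMap A K b))⁻¹ (HahnSeries.C (algebraMap A k b))⁻¹ :=
    (LR.const b).inv (by rw [Ne, map_eq_zero]; exact hc0)
  refine (h5.mul h3).of_eq ?_ ?_
  · rw [MulMemClass.coe_mul, e1, ← mul_assoc, inv_mul_cancel₀, one_mul]
    rw [Ne, map_eq_zero]; exact hbK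
  · rw [MulMemClass.coe_mul, e2, ← mul_assoc, inv_mul_cancel₀, one_mul]
    rw [Ne, map_eq_zero]; exact hc0

end Abs

variable {A K k : Type*} [CommRing A] [IsDomain A] [ValuationRing A]
  [Field K] [IsAlgClosed K] [CharZero K] [Algebra ℚ K] [Algebra A K] [IsFractionRing A K]
  [Field k] [IsAlgClosed k] [Algebra A k] {q M : ℕ} [hq : Fact q.Prime] [NeZero M]
  {H : Subgroup (ZMod M)ˣ} [hH : Fact ((-1 : (ZMod M)ˣ) ∈ H)] [CharP k q] [PerfectRing k q]
  (s : Setting A K k q M H) {m : ℕ} [NeZero m]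

variable {l : ℕ} [NeZero l] {γ : SL(2, ℤ)} {z : Aˣ}

/-- the Hecke operator on functions of level `q M` -/
def TGq (hl : l.Prime) (hlN : ¬ l ∣ q * M) (hγ : Adp (q * M) l γ)
    (hz : IsPrimitiveRoot (Units.map (algebraMap A K : A →* K) z) l)
    (x : FG (Gq q M H) K) : FG (Gq q M H) K :=
  KumG.TTG (Γ := Gq q M H) (G := Gamma0 (q * M)) s.ι hl hγ.mem hz
    (fam_rT (HM (dvd_mul_left M q) H) hl hlN hγ) x

variable (hl : l.Prime) (hlN : ¬ l ∣ q * M) (hγ : Adp (q * M) l γ)
  (hz : IsPrimitiveRoot (Units.map (algebraMap A K : A →* K) z) l)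
  (hz' : IsPrimitiveRoot (Units.map (algebraMap A k : A →* k) z) l)

theorem coe_TGq (x : FG (Gq q M H) K) : (TGq s hl hlN hγ hz x : LaurentSeries K) =
    qExpand K l ((dS s hγ.mem).D x : LaurentSeries K) *
      NN l (Units.map (algebraMap A K : A →* K) z) (x : LaurentSeries K) := rfl

theorem TGq_mul (x y : FG (Gq q M H) K) :
    TGq s hl hlN hγ hz (x * y) = TGq s hl hlN hγ hz x * TGq s hl hlN hγ hz y := by
  apply Subtype.ext
  rw [coe_TGq, map_mul]
  change _ = (TGq s hl hlN hγ hz x : LaurentSeries K) * (TGq s hl hlN hγ hz y : LaurentSeries K)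
  rw [coe_TGq, coe_TGq, MulMemClass.coe_mul, MulMemClass.coe_mul, map_mul, NN_mul hz]
  ring

theorem w_TGq (x : FG (Gq q M H) K) :
    s.S.w (TGq s hl hlN hγ hz x) = TGq s hl hlN hγ hz (s.S.w x) :=
  w_TTG hl hlN hγ hz _ x

theorem galK_TGq (σ : K ≃ₐ[ℚ] K) (x : FG (Gq q M H) K) :
    galK σ (TGq s hl hlN hγ hz x) = TGq s hl hlN hγ hz (galK σ x) :=
  galK_TTG s.ι hl hγ.mem hz _ σ x

variable {s} in
theorem HasCls.TGq {f : FG (Gq q M H) K} {ξ : XL (Gq q M H) m} (h : HasCls s.ι m f ξ) :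
    HasCls s.ι m (E2K.TGq s hl hlN hγ hz f)
      (actE (Gq q M H) m (TH (q * M) (HM (dvd_mul_left M q) H) hl hlN) ξ) := by
  rw [TH_eq hl hlN hγ]
  exact HasCls.TTG hl hγ.mem hz _ h

include hz' in
/-- the reduction of `T_ℓ` on one component -/
theorem LR_TGq {x : FG (Gq q M H) K} {α : FH k M H}
    (h : LR A (x : LaurentSeries K) (α : LaurentSeries k)) :
    LR A (TGq s hl hlN hγ hz x : LaurentSeries K) (TbL s (l := l) hγ.mem z α) :=
  ((dia_red1 s.S (dS s hγ.mem) h).exp).mul (LR_NN hz hz' h)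

theorem TGq_const {c : K} (hc : c ≠ 0) :
    TGq s hl hlN hγ hz (algebraMap K (FG (Gq q M H) K) c) =
      algebraMap K (FG (Gq q M H) K) c ^ (l + 1) := by
  apply Subtype.ext
  rw [coe_TGq, AlgEquiv.commutes]
  have e : ((algebraMap K (FG (Gq q M H) K) c : FG (Gq q M H) K) : LaurentSeries K) =
      HahnSeries.C c := SSD.coe_algebraMap c
  have e1 : ((algebraMap K (FG (Gq q M H) K) c ^ (l + 1) : FG (Gq q M H) K) : LaurentSeries K) =
      HahnSeries.C c ^ (l + 1) := by
    rw [← e]; rfl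
  rw [e, e1, pow_succ', HahnSeries.C_apply, qExpand_single, mul_zero]
  congr 1
  apply qExpand_injective l
  rw [qExpand_NN hz, map_pow, qExpand_single, mul_zero, PP, Finset.prod_congr rfl (g := fun _ =>
    (HahnSeries.single 0 c : LaurentSeries K)) (fun i _ => by
      rw [twist_single, zpow_zero, Units.val_one, one_mul])]
  rw [Finset.prod_const, Finset.card_univ, ZMod.card]

end

end Fermat.Agent.E2K
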