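import Fermat.Agent.E2K.Cls
import Fermat.Agent.E2K.Mop
import Fermat.Agent.E2K.NNred

/-!
# Hecke operators on functions, and the reductions on the two components
-/

set_option autoImplicit false
set_option linter.unusedSectionVars false
set_option linter.style.haveILetI false

open UpperHalfPlane ModularForm Complex Matrix.SpecialLinearGroup
open scoped MatrixGroups Manifold
open Fermat.Agent.AL Fermat.Agent.ALCoh Fermat.Agent.KumG Fermat.Agent.Cov CongruenceSubgroup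
  ModularCurve Fermat.Agent.ModPoly Fermat.Agent.GamH Polynomial Fermat.Agent.HeckeProd
  IntermediateField Fermat.Agent.RedMod Fermat.Agent.Red AlgebraicCurve Fermat.Agent.RR
  Fermat.Agent.SSH

namespace Fermat.Agent.E2K

noncomputable section

section Op

variable {Γ : Subgroup SL(2, ℤ)} [LvlG Γ] [RatG Γ] {K : Type*} [Field K] [Algebra ℚ K]
  [IsAlgClosed K] [CharZero K] {ι : K →+* ℂ} {m : ℕ} [NeZero m] {κ : Type*} [Fintype κ]
  {rep : κ → M2}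

/-- classes of images under multiplicative operators -/
theorem HasCls.op {x y : FG Γ K} {ξ : XL Γ m} (h : HasCls ι m x ξ) (hF : Fam Γ Γ rep)
    (hdet : ∀ i, 0 < (rep i).det)
    (hy : coeffMap ι y.1 = KumG.mop Γ rep (coeffMap ι x.1)) :
    HasCls ι m y (actE Γ m (opL hF) ξ) := by
  obtain ⟨Φ, rfl, h⟩ := h
  refine ⟨opL hF Φ, (actE_mkX _ _).symm, ?_⟩
  rw [redI_opL]
  have h1 := KumG.rep_mop hF hdet h
  have e : coeffMap ι (y : LaurentSeries K) = KumG.mop Γ rep (coeffMap ι (x : LaurentSeries K)) := hy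
  rw [e]
  exact h1

end Op

variable {A K k : Type*} [CommRing A] [IsDomain A] [ValuationRing A]
  [Field K] [IsAlgClosed K] [CharZero K] [Algebra ℚ K] [Algebra A K] [IsFractionRing A K]
  [Field k] [IsAlgClosed k] [Algebra A k] {q M : ℕ} [hq : Fact q.Prime] [NeZero M]
  {H : Subgroup (ZMod M)ˣ} [hH : Fact ((-1 : (ZMod M)ˣ) ∈ H)] [CharP k q] [PerfectRing k q]
  (s : Setting A K k q M H) {m : ℕ} [NeZero m]

/-- `x` is integral, with reduction the reduction of a function of class `ω`, up to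
`m`-th powers -/
def Spz (x : LaurentSeries K) (ω : XL (GH M H) m) : Prop :=
  ∃ (a : FG (GH M H) K) (α β : FH k M H), HasCls s.ι m a ω ∧
    LR A (a : LaurentSeries K) (α : LaurentSeries k) ∧ α ≠ 0 ∧ β ≠ 0 ∧
    LR A x ((α * β ^ m : FH k M H) : LaurentSeries k)

/-- `f` has class `ξ`, and its reductions on the two components are given by functions of level
`Γ_H(M)` with classes `ω₀`, `ω₁` -/
structure RR (f : FG (Gq q M H) K) (ξ : XL (Gq q M H) m) (ω₀ ω₁ : XL (GH M H) m) : Prop where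
  cls : HasCls s.ι m f ξ
  r0 : Spz s (f : LaurentSeries K) ω₀
  r1 : Spz s (s.S.w f : LaurentSeries K) ω₁

section Basic

variable {s} {x y : LaurentSeries K} {ω ω' : XL (GH M H) m}

theorem Spz.mul (h : Spz s x ω) (h' : Spz s y ω') : Spz s (x * y) (ω + ω') := by
  obtain ⟨a, α, β, h1, h2, h3, h4, h5⟩ := h
  obtain ⟨a', α', β', h1', h2', h3', h4', h5'⟩ := h'
  refine ⟨a * a', α * α', β * β', h1.mul h1', h2.mul h2', mul_ne_zero h3 h3',
    mul_ne_zero h4 h4', (h5.mul h5').of_eq rfl ?_⟩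
  rw [← MulMemClass.coe_mul]
  congr 1
  ring

theorem Spz.inv (h : Spz s x ω) : Spz s x⁻¹ (-ω) := by
  obtain ⟨a, α, β, h1, h2, h3, h4, h5⟩ := h
  have e : ∀ z : FH k M H, ((z⁻¹ : FH k M H) : LaurentSeries k) = (z : LaurentSeries k)⁻¹ :=
    fun z => rfl
  have n1 : (α : LaurentSeries k) ≠ 0 := fun h => h3 (Subtype.ext h)
  have n2 : ((α * β ^ m : FH k M H) : LaurentSeries k) ≠ 0 := fun h =>
    mul_ne_zero h3 (pow_ne_zero m h4) (Subtype.ext h)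
  refine ⟨a⁻¹, α⁻¹, β⁻¹, h1.inv, (h2.inv n1).of_eq rfl (e α).symm, inv_ne_zero h3,
    inv_ne_zero h4, (h5.inv n2).of_eq rfl ?_⟩
  rw [← e]
  congr 1
  rw [mul_inv, inv_pow]

variable (s) in
theorem Spz.one : Spz s (1 : LaurentSeries K) (0 : XL (GH M H) m) := by
  refine ⟨1, 1, 1, ?_, LR.one, one_ne_zero, one_ne_zero, ?_⟩
  · have := HasCls.pow_self (Γ := GH M H) (K := K) s.ι (m := m) (one_ne_zero)
    rwa [one_pow] at this
  · refine LR.one.of_eq rfl ?_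
    rw [one_pow, mul_one]
    rfl

variable {f g : FG (Gq q M H) K} {ξ ξ' : XL (Gq q M H) m} {ω₀ ω₁ ω₀' ω₁' : XL (GH M H) m}

theorem RR.mul (h : RR s f ξ ω₀ ω₁) (h' : RR s g ξ' ω₀' ω₁') :
    RR s (f * g) (ξ + ξ') (ω₀ + ω₀') (ω₁ + ω₁') where
  cls := h.cls.mul h'.cls
  r0 := h.r0.mul h'.r0
  r1 := by
    rw [map_mul]
    exact h.r1.mul h'.r1

theorem RR.inv (h : RR s f ξ ω₀ ω₁) : RR s f⁻¹ (-ξ) (-ω₀) (-ω₁) where
  cls := h.cls.inv
  r0 := h.r0.inv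
  r1 := by
    rw [map_inv₀]
    exact h.r1.inv

variable (s) in
theorem RR.one : RR s (1 : FG (Gq q M H) K) (0 : XL (Gq q M H) m) (0 : XL (GH M H) m)
    (0 : XL (GH M H) m) where
  cls := by
    have := HasCls.pow_self (Γ := Gq q M H) (K := K) s.ι (m := m) (one_ne_zero)
    rwa [one_pow] at this
  r0 := Spz.one s
  r1 := by
    rw [map_one]
    exact Spz.one s

/-- the reductions of the two expansions -/
theorem RR.hasRed (h : RR s f ξ ω₀ ω₁) : ∃ (a₀ a₁ : FG (GH M H) K) (α₀ α₁ β₀ β₁ : FH k M H),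
    HasCls s.ι m a₀ ω₀ ∧ HasCls s.ι m a₁ ω₁ ∧
    LR A (a₀ : LaurentSeries K) (α₀ : LaurentSeries k) ∧
    LR A (a₁ : LaurentSeries K) (α₁ : LaurentSeries k) ∧ α₀ ≠ 0 ∧ α₁ ≠ 0 ∧ β₀ ≠ 0 ∧ β₁ ≠ 0 ∧
    s.S.HasRed f ((α₀ * β₀ ^ m : FH k M H) : LaurentSeries k)
      ((α₁ * β₁ ^ m : FH k M H) : LaurentSeries k) := by
  obtain ⟨a, α, β, h1, h2, h3, h4, h5⟩ := h.r0
  obtain ⟨a', α', β', h1', h2', h3', h4', h5'⟩ := h.r1
  exact ⟨a, a', α, α', β, β', h1, h1', h2, h2', h3, h3', h4, h4', h5, h5'⟩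

end Basic

/-! ### diamonds -/

section Dia

variable {γ : SL(2, ℤ)} (hγ : γ ∈ Gamma0 (q * M))

/-- the diamond structure of `γ` -/
def dS : Dia (FG (Gq q M H) K) s.S.G s.S.hle s.S.w :=
  diaD (A := A) (k := k) s.ι s.hk s.hM s.hM3 s.D hγ

theorem dS_D (x : FG (Gq q M H) K) : (dS s hγ).D x = diaK (Γ := Gq q M H) s.ι hγ x := rfl

theorem dS_θ (x : FG (GH M H) K) : (dS s hγ).θ x = diaK (Γ := GH M H) s.ι (mem_M hγ) x := rfl

variable {s} {f : FG (Gq q M H) K} {ξ : XL (Gq q M H) m} {ω₀ ω₁ : XL (GH M H) m}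

theorem HasCls.dia {Γ G : Subgroup SL(2, ℤ)} [LvlG Γ] [DiaG Γ G] (hγ : γ ∈ G) {x : FG Γ K}
    {ξ : XL Γ m} {ι : K →+* ℂ} (h : HasCls ι m x ξ) :
    HasCls ι m (diaK (Γ := Γ) ι hγ x) (actE Γ m (opL (fam_dia (nz_of_mem Γ hγ))) ξ) := by
  refine h.op (fam_dia (nz_of_mem Γ hγ)) (fun _ => by rw [γ.det_coe]; exact one_pos) ?_
  rw [mop_dia (nz_of_mem Γ hγ) (coeffMap_mem_MFunG ι x.2)]
  exact coe_diaK ι hγ x

/-- **the relation is stable under diamonds** -/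
theorem RR.dia (h : RR s f ξ ω₀ ω₁) {d : (ZMod (q * M))ˣ} (hd : dd (q * M) γ = d) :
    RR s ((dS s hγ).D f) (actE (Gq q M H) m (DH (q * M) (HM (dvd_mul_left M q) H) d) ξ)
      (actE (GH M H) m (DH M H (ZMod.unitsMap (dvd_mul_left M q) d)) ω₀)
      (actE (GH M H) m (DH M H (ZMod.unitsMap (dvd_mul_left M q) d)) ω₁) := by
  have hdM : dd M γ = (ZMod.unitsMap (dvd_mul_left M q) d : (ZMod M)ˣ) := by
    rw [← dd_cast (dvd_mul_left M q), hd]
    rfl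
  have hD1 : DH (q * M) (HM (dvd_mul_left M q) H) d =
      opL (fam_dia (nz_of_mem (Gq q M H) hγ)) := DH_eq hγ hd
  have hD2 : DH M H (ZMod.unitsMap (dvd_mul_left M q) d) =
      opL (fam_dia (nz_of_mem (GH M H) (mem_M hγ))) := DH_eq (mem_M hγ) hdM
  obtain ⟨a₀, a₁, α₀, α₁, β₀, β₁, c0, c1, r0, r1, n0, n1, m0, m1, hr⟩ := h.hasRed
  have hr' := s.S.dia_red (dS s hγ) hr
  have e : ∀ α β : FH k M H, (dS s hγ).θb (α * β ^ m) =
      (dS s hγ).θb α * (dS s hγ).θb β ^ m := fun α β => by rw [map_mul, map_pow]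
  rw [e, e] at hr'
  have hne : ∀ {α : FH k M H}, α ≠ 0 → (dS s hγ).θb α ≠ 0 := fun {α} h =>
    (map_ne_zero_iff _ (dS s hγ).θb.injective).2 h
  refine ⟨?_, ⟨_, _, _, ?_, SSD.LR.dia (dS s hγ) r0, hne n0, hne m0, hr'.1⟩,
    ⟨_, _, _, ?_, SSD.LR.dia (dS s hγ) r1, hne n1, hne m1, hr'.2⟩⟩
  · rw [hD1]
    exact HasCls.dia hγ h.cls
  · rw [hD2]
    exact HasCls.dia (mem_M hγ) c0
  · rw [hD2]
    exact HasCls.dia (mem_M hγ) c1

end Dia

/-! ### Hecke operators -/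

section Hecke

variable {l : ℕ} [NeZero l] {γ : SL(2, ℤ)}

variable {z : Aˣ} (hz : IsPrimitiveRoot (Units.map (algebraMap A K : A →* K) z) l)
  (hz' : IsPrimitiveRoot (Units.map (algebraMap A k : A →* k) z) l)

/-- the reduction of the Hecke operator, as a series -/
def TbL (hγ : γ ∈ Gamma0 (q * M)) (z : Aˣ) (α : FH k M H) : LaurentSeries k :=
  qExpand k l ((dS s hγ).θb α : LaurentSeries k) *
    NN l (Units.map (algebraMap A k : A →* k) z) (α : LaurentSeries k)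

include hz hz' in
theorem LR_TTG (hl : l.Prime) (hlM : ¬ l ∣ M) (hγ : Adp (q * M) l γ)
    {a : FG (GH M H) K} {α : FH k M H}
    (h : LR A (a : LaurentSeries K) (α : LaurentSeries k)) :
    LR A (TTG s.ι hl (mem_M hγ.mem) hz (fam_rT H hl hlM (adp_of_adp hγ)) a : LaurentSeries K)
      (TbL s (l := l) hγ.mem z α) :=
  ((SSD.LR.dia (dS s hγ.mem) h).exp).mul (LR_NN hz hz' h)

include hz hz' in
theorem TbL_mem (hl : l.Prime) (hlM : ¬ l ∣ M) (hγ : Adp (q * M) l γ) (α : FH k M H) :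
    TbL s (l := l) hγ.mem z α ∈ FH k M H := by
  letI := algA A (FG (GH M H) K)
  haveI := tower_algA A (FG (GH M H) K)
  letI := algA A (FH k M H)
  haveI := tower_algA A (FH k M H)
  obtain ⟨⟨x, hx⟩, h⟩ := redG_surjective s.S.G s.sp.fink s.sp.rkk α
  have h0 : LR A (x : LaurentSeries K) (α : LaurentSeries k) := ⟨hx, congrArg Subtype.val h⟩
  have h1 := LR_TTG s hz hz' hl hlM hγ h0
  rw [← h1.2]
  exact s.S.G.πL_mem _

include hz hz' in
/-- the reduction of the Hecke operator -/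
theorem exists_Tb (hl : l.Prime) (hlM : ¬ l ∣ M) (hγ : Adp (q * M) l γ) :
    ∃ Tb : FH k M H →* FH k M H, (∀ α, (Tb α : LaurentSeries k) = TbL s (l := l) hγ.mem z α) ∧
      ∀ α, α ≠ 0 → Tb α ≠ 0 := by
  refine ⟨⟨⟨fun α => ⟨_, TbL_mem s hz hz' hl hlM hγ α⟩, ?_⟩, ?_⟩, fun α => rfl,
    fun α hα h0 => ?_⟩
  · apply Subtype.ext
    change TbL s (l := l) hγ.mem z 1 = 1
    have e : ((1 : FH k M H) : LaurentSeries k) = 1 := rfl
    rw [TbL, map_one, e, map_one, NN_one, one_mul]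
  · intro α β
    apply Subtype.ext
    change TbL s (l := l) hγ.mem z (α * β) = TbL s (l := l) hγ.mem z α * TbL s (l := l) hγ.mem z β
    rw [TbL, TbL, TbL, map_mul, MulMemClass.coe_mul, MulMemClass.coe_mul, map_mul, NN_mul hz']
    ring
  · have h1 : TbL s (l := l) hγ.mem z α = 0 := congrArg Subtype.val h0
    rw [TbL, mul_eq_zero] at h1
    rcases h1 with h1 | h1
    · rw [map_eq_zero] at h1
      have h2 : (dS s hγ.mem).θb α = 0 := Subtype.ext h1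
      rw [map_eq_zero_iff _ (dS s hγ.mem).θb.injective] at h2
      exact hα h2
    · exact NN_ne_zero hz' (fun h => hα (Subtype.ext h)) h1

variable {s} {f : FG (Gq q M H) K} {ξ : XL (Gq q M H) m} {ω₀ ω₁ : XL (GH M H) m}

theorem HasCls.TTG {Γ G : Subgroup SL(2, ℤ)} [LvlG Γ] [DiaG Γ G] (hl : l.Prime) (hγ : γ ∈ G)
    {ζ : Kˣ} (hζ : IsPrimitiveRoot ζ l) (hF : Fam Γ Γ (rT l γ)) {x : FG Γ K}
    {ξ : XL Γ m} {ι : K →+* ℂ} (h : HasCls ι m x ξ) :
    HasCls ι m (KumG.TTG (Γ := Γ) ι hl hγ hζ hF x) (actE Γ m (opL hF) ξ) :=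
  h.op hF (det_rT_pos hl γ) (coeffMap_coe_TTG ι hl hγ hζ hF x)

/-- the Hecke operator commutes with the Atkin-Lehner involution -/
theorem w_TTG (hl : l.Prime) (hlN : ¬ l ∣ q * M) (hγ : Adp (q * M) l γ) {ζ : Kˣ}
    (hζ : IsPrimitiveRoot ζ l)
    (hF : Fam (Gq q M H) (Gq q M H) (rT l γ)) (x : FG (Gq q M H) K) :
    s.S.w (KumG.TTG (Γ := Gq q M H) (G := Gamma0 (q * M)) s.ι hl hγ.mem hζ hF x) =
      KumG.TTG (Γ := Gq q M H) (G := Gamma0 (q * M)) s.ι hl hγ.mem hζ hF (s.S.w x) := by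
  apply Subtype.ext
  apply coeffMap_inj s.ι
  have h1 : ∀ y : FG (Gq q M H) K, coeffMap s.ι (s.S.w y : LaurentSeries K) =
      slF (Gq q M H) s.D.W (coeffMap s.ι y.1) := fun y => coe_wE s.ι s.D s.hM3 y
  have h2 : ∀ y : FG (Gq q M H) K, coeffMap s.ι
      (KumG.TTG (Γ := Gq q M H) (G := Gamma0 (q * M)) s.ι hl hγ.mem hζ hF y : LaurentSeries K) =
      KumG.mop (Gq q M H) (rT l γ) (coeffMap s.ι y.1) := fun y =>
    coeffMap_coe_TTG s.ι hl hγ.mem hζ hF y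
  have h3 : ∀ y : FG (Gq q M H) K, coeffMap s.ι y.1 ∈ MFunG (Gq q M H) := fun y =>
    coeffMap_mem_MFunG s.ι y.2
  have e1 := h1 (KumG.TTG (Γ := Gq q M H) (G := Gamma0 (q * M)) s.ι hl hγ.mem hζ hF x)
  have e2 := h2 (s.S.w x)
  refine e1.trans (Eq.trans ?_ e2.symm)
  have e3 := h2 x
  have e4 := h1 x
  refine (congrArg (slF (Gq q M H) s.D.W) e3).trans ?_
  refine Eq.trans ?_ (congrArg (KumG.mop (Gq q M H) (rT l γ)) e4).symm
  exact slF_mop s.D hl hlN hγ (h3 x)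

/-- **the relation is stable under `T_ℓ`** -/
theorem RR.hecke (h : RR s f ξ ω₀ ω₁) (hl : l.Prime) (hlN : ¬ l ∣ q * M) (hlM : ¬ l ∣ M)
    (hγ : Adp (q * M) l γ) :
    ∃ g : FG (Gq q M H) K,
      (∀ σ : K ≃ₐ[ℚ] K, galK σ f = f → galK σ g = g) ∧
      RR s g (actE (Gq q M H) m (TH (q * M) (HM (dvd_mul_left M q) H) hl hlN) ξ)
        (actE (GH M H) m (TH M H hl hlM) ω₀) (actE (GH M H) m (TH M H hl hlM) ω₁) := by
  have hlk : (l : k) ≠ 0 := by
    rw [Ne, CharP.cast_eq_zero_iff k q]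
    intro h
    have := (Nat.prime_dvd_prime_iff_eq hq.out hl).1 h
    exact hlN (this ▸ dvd_mul_right q M)
  obtain ⟨z, hz, hz'⟩ := exists_root_unit (A := A) (K := K) (k := k) hl hlk
  obtain ⟨Tb, hTb, hTb0⟩ := exists_Tb s hz hz' hl hlM hγ
  have hF : Fam (Gq q M H) (Gq q M H) (rT l γ) := fam_rT (HM (dvd_mul_left M q) H) hl hlN hγ
  have hT1 : TH (q * M) (HM (dvd_mul_left M q) H) hl hlN = opL hF := TH_eq hl hlN hγ
  have hT2 : TH M H hl hlM = opL (fam_rT H hl hlM (adp_of_adp hγ)) :=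
    TH_eq hl hlM (adp_of_adp hγ)
  obtain ⟨a₀, a₁, α₀, α₁, β₀, β₁, c0, c1, r0, r1, n0, n1, m0, m1, hr⟩ := h.hasRed
  have hr' := s.S.dia_red (dS s hγ.mem) hr
  have hrw := s.S.dia_red (dS s hγ.mem) hr.w
  have e : ∀ α β : FH k M H, TbL s (l := l) hγ.mem z (α * β ^ m) =
      ((Tb α * Tb β ^ m : FH k M H) : LaurentSeries k) := fun α β => by
    rw [← hTb, map_mul, map_pow]
  refine ⟨KumG.TTG (Γ := Gq q M H) (G := Gamma0 (q * M)) s.ι hl hγ.mem hz hF f, ?_, ?_, ?_, ?_⟩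
  · intro σ hσ
    rw [galK_TTG, hσ]
  · rw [hT1]
    exact HasCls.TTG hl hγ.mem hz hF h.cls
  · refine ⟨_, Tb α₀, Tb β₀, ?_, (LR_TTG s hz hz' hl hlM hγ r0).of_eq rfl (hTb _).symm,
      hTb0 _ n0, hTb0 _ m0, ?_⟩
    · rw [hT2]
      exact HasCls.TTG hl (mem_M hγ.mem) hz _ c0
    · rw [← e]
      exact ((hr'.1).exp).mul (LR_NN hz hz' hr.1)
  · rw [w_TTG hl hlN hγ]
    refine ⟨_, Tb α₁, Tb β₁, ?_, (LR_TTG s hz hz' hl hlM hγ r1).of_eq rfl (hTb _).symm,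
      hTb0 _ n1, hTb0 _ m1, ?_⟩
    · rw [hT2]
      exact HasCls.TTG hl (mem_M hγ.mem) hz _ c1
    · rw [← e]
      exact ((hrw.1).exp).mul (LR_NN hz hz' hr.2)

end Hecke

end

end Fermat.Agent.E2K
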